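/-
Programme T1B (S44 / row 38), NODE/PHI cell, brick Phi4 DESC' (owner helper1): INTERFACE.

Hub vocabulary (T1A): `c0 : TwoChart W B0 B1 B01`, `PicX c0 A`, `PtLine75.ptClass0/1`,
`GalAct44.ChartAction / SemiAction / actPic / twistPt0/1`.

* `CentresClass47.chartAutRefl c0`, `trivAction c0 Γ` : the trivial action of any group on the chart system
  (in the application: inertia, the base `W = O_K` being unramified);
* `algSemi c0 A : SemiAction (trivAction c0 (A ≃ₐ[W] A)) A` : the tautological action of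
  `A ≃ₐ[W] A` on `A`;  **`galPic c0 τ : PicX c0 A →* PicX c0 A`** the induced action on `Pic X_A`;
* `galTensor τ B : (A ⊗[W] B) ≃+* (A ⊗[W] B)`, `a ⊗ b ↦ τ a ⊗ b`;
* `IdealPair.gal τ D` : the image of an ideal pair of `X_A` under `τ`, and
  `galPic_mk_ofIdeals : galPic τ [O(-D)] = [O(-τD)]`;
* `PtIdx c0 A` : the points of the two charts with invertible ideal, `ptCls : PtIdx c0 A → PicX c0 A`,
  `twistIdx τ : PtIdx c0 A → PtIdx c0 A` (`q ↦ τ ∘ q`), `galPic_ptCls`;
* **`StableMultisetStatement`** : the target of Phi4.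
-/
import Mathlib
import Fermat.Agent.T1.GalAct44
import Fermat.Agent.T1.CentresClass47

set_option autoImplicit false
set_option linter.unusedSectionVars false
set_option linter.style.haveILetI false

open TensorProduct

namespace Fermat.Agent.T1B.Desc1

open Fermat.Agent.Jac Fermat.Agent.Jac.JSmooth85Alg Fermat.Agent.Jac.JGroup85Pic
open Fermat.Agent.Jac.BaseChange75 Fermat.Agent.Jac.LineOps39 Fermat.Agent.T1.RedIface75
open Fermat.Agent.T1.PtLine75 Fermat.Agent.T1.GalAct44 Fermat.Agent.T1.CentresClass47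
open scoped Fermat.Agent.Jac.BaseChange75

universe u v

variable {W B0 B1 B01 : Type u} [CommRing W] [CommRing B0] [CommRing B1] [CommRing B01]
  [Algebra W B0] [Algebra W B1] [Algebra W B01] [Algebra B0 B01] [Algebra B1 B01]
  [IsScalarTower W B0 B01] [IsScalarTower W B1 B01]

/-! ### The trivial chart action -/

/-- The trivial action of a group on the chart system. -/
def trivAction (c0 : TwoChart W B0 B1 B01) (Γ : Type v) [Group Γ] : ChartAction c0 Γ where
  S _ := chartAutRefl c0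
  oneW := rfl
  one0 := rfl
  one1 := rfl
  one01 := rfl
  mulW _ _ := rfl
  mul0 _ _ := rfl
  mul1 _ _ := rfl
  mul01 _ _ := rfl

variable (c0 : TwoChart W B0 B1 B01) (A : Type u) [CommRing A] [Algebra W A]

/-- The tautological action of `A ≃ₐ[W] A` on `A`, semilinear over the trivial chart action. -/
def algSemi : SemiAction (trivAction c0 (A ≃ₐ[W] A)) A where
  f τ := (τ : A →+* A)
  one := rfl
  mul _ _ := rfl
  semi τ w a := by
    show τ (w • a) = w • τ a
    exact map_smul τ w a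

variable {A}

/-- **The action of a `W`-algebra automorphism of `A` on `Pic X_A`.** -/
noncomputable def galPic (τ : A ≃ₐ[W] A) : PicX c0 A →* PicX c0 A :=
  actPic (trivAction c0 (A ≃ₐ[W] A)) (algSemi c0 A) τ

theorem galPic_one (x : PicX c0 A) : galPic c0 (1 : A ≃ₐ[W] A) x = x :=
  actPic_one_apply _ _ x

theorem galPic_mul (σ τ : A ≃ₐ[W] A) (x : PicX c0 A) :
    galPic c0 (σ * τ) x = galPic c0 σ (galPic c0 τ x) :=
  actPic_mul_apply _ _ σ τ x

/-! ### The action on the chart rings and on ideal pairs -/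

section Tensor

variable {B : Type u} [CommRing B] [Algebra W B]

/-- `τ ⊗ id` as a ring homomorphism of `A ⊗[W] B`. -/
noncomputable def galTensorHom (τ : A ≃ₐ[W] A) (B : Type u) [CommRing B] [Algebra W B] :
    A ⊗[W] B →+* A ⊗[W] B :=
  semiTensor (RingHom.id W) (τ : A →+* A) (RingHom.id B) (fun w a => map_smul τ w a)
    (fun _ _ => rfl)

@[simp] theorem galTensorHom_tmul (τ : A ≃ₐ[W] A) (a : A) (b : B) :
    galTensorHom τ B (a ⊗ₜ[W] b) = τ a ⊗ₜ[W] b := rfl

theorem galTensorHom_comp (σ τ : A ≃ₐ[W] A) (x : A ⊗[W] B) :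
    galTensorHom σ B (galTensorHom τ B x) = galTensorHom (σ * τ) B x := by
  induction x using TensorProduct.induction_on with
  | zero => simp
  | tmul a b => rfl
  | add x y hx hy => rw [map_add, map_add, map_add, hx, hy]

theorem galTensorHom_one (x : A ⊗[W] B) : galTensorHom (1 : A ≃ₐ[W] A) B x = x := by
  induction x using TensorProduct.induction_on with
  | zero => simp
  | tmul a b => rfl
  | add x y hx hy => rw [map_add, hx, hy]

/-- `τ ⊗ id` as a ring automorphism of `A ⊗[W] B`. -/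
noncomputable def galTensor (τ : A ≃ₐ[W] A) (B : Type u) [CommRing B] [Algebra W B] :
    A ⊗[W] B ≃+* A ⊗[W] B :=
  RingEquiv.ofRingHom (galTensorHom τ B) (galTensorHom τ⁻¹ B)
    (RingHom.ext fun x => by
      rw [RingHom.comp_apply, galTensorHom_comp, mul_inv_cancel, galTensorHom_one]; rfl)
    (RingHom.ext fun x => by
      rw [RingHom.comp_apply, galTensorHom_comp, inv_mul_cancel, galTensorHom_one]; rfl)

@[simp] theorem galTensor_tmul (τ : A ≃ₐ[W] A) (a : A) (b : B) :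
    galTensor τ B (a ⊗ₜ[W] b) = τ a ⊗ₜ[W] b := rfl

theorem galTensor_coe (τ : A ≃ₐ[W] A) :
    ((galTensor τ B : A ⊗[W] B ≃+* A ⊗[W] B) : A ⊗[W] B →+* A ⊗[W] B) = galTensorHom τ B := rfl

theorem galTensor_mul (σ τ : A ≃ₐ[W] A) (x : A ⊗[W] B) :
    galTensor (σ * τ) B x = galTensor σ B (galTensor τ B x) :=
  (galTensorHom_comp σ τ x).symm

end Tensor

include c0 in
/-- The overlap compatibility of `τ ⊗ id` (chart 0). -/
theorem galTensorHom_algebraMap0 (τ : A ≃ₐ[W] A) (x : A ⊗[W] B0) :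
    galTensorHom τ B01 (algebraMap (A ⊗[W] B0) (A ⊗[W] B01) x) =
      algebraMap (A ⊗[W] B0) (A ⊗[W] B01) (galTensorHom τ B0 x) :=
  (congrArg (fun φ : A ⊗[W] B0 →+* A ⊗[W] B01 => φ x)
    ((chartAutRefl c0).square0 (τ : A →+* A) (fun w a => map_smul τ w a))).symm

include c0 in
/-- The overlap compatibility of `τ ⊗ id` (chart 1). -/
theorem galTensorHom_algebraMap1 (τ : A ≃ₐ[W] A) (x : A ⊗[W] B1) :
    galTensorHom τ B01 (algebraMap (A ⊗[W] B1) (A ⊗[W] B01) x) =
      algebraMap (A ⊗[W] B1) (A ⊗[W] B01) (galTensorHom τ B1 x) :=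
  (congrArg (fun φ : A ⊗[W] B1 →+* A ⊗[W] B01 => φ x)
    ((chartAutRefl c0).square1 (τ : A →+* A) (fun w a => map_smul τ w a))).symm

/-- **The image of an ideal pair of `X_A` under `τ`.** -/
noncomputable def idealPairGal (τ : A ≃ₐ[W] A)
    (D : IdealPair (A ⊗[W] B0) (A ⊗[W] B1) (A ⊗[W] B01)) :
    IdealPair (A ⊗[W] B0) (A ⊗[W] B1) (A ⊗[W] B01) where
  I0 := D.I0.map (galTensorHom τ B0)
  I1 := D.I1.map (galTensorHom τ B1)
  compat := by
    have h0 : (algebraMap (A ⊗[W] B0) (A ⊗[W] B01)).comp (galTensorHom τ B0) =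
        (galTensorHom τ B01).comp (algebraMap (A ⊗[W] B0) (A ⊗[W] B01)) :=
      RingHom.ext fun x => (galTensorHom_algebraMap0 c0 τ x).symm
    have h1 : (algebraMap (A ⊗[W] B1) (A ⊗[W] B01)).comp (galTensorHom τ B1) =
        (galTensorHom τ B01).comp (algebraMap (A ⊗[W] B1) (A ⊗[W] B01)) :=
      RingHom.ext fun x => (galTensorHom_algebraMap1 c0 τ x).symm
    rw [Ideal.map_map, Ideal.map_map, h0, h1, ← Ideal.map_map, ← Ideal.map_map, D.compat]

@[simp] theorem idealPairGal_I0 (τ : A ≃ₐ[W] A)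
    (D : IdealPair (A ⊗[W] B0) (A ⊗[W] B1) (A ⊗[W] B01)) :
    (idealPairGal c0 τ D).I0 = D.I0.map (galTensorHom τ B0) := rfl

@[simp] theorem idealPairGal_I1 (τ : A ≃ₐ[W] A)
    (D : IdealPair (A ⊗[W] B0) (A ⊗[W] B1) (A ⊗[W] B01)) :
    (idealPairGal c0 τ D).I1 = D.I1.map (galTensorHom τ B1) := rfl

/-- **The Galois action on the class of an ideal sheaf.** -/
theorem galPic_mk_ofIdeals (τ : A ≃ₐ[W] A)
    (D : IdealPair (A ⊗[W] B0) (A ⊗[W] B1) (A ⊗[W] B01))
    (hL : (ofIdeals (c0.baseChange A) D).IsLine)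
    (hL' : (ofIdeals (c0.baseChange A) (idealPairGal c0 τ D)).IsLine) :
    galPic c0 τ (LinePic.mk (c0.baseChange A) (ofIdeals (c0.baseChange A) D) hL) =
      LinePic.mk (c0.baseChange A) (ofIdeals (c0.baseChange A) (idealPairGal c0 τ D)) hL' :=
  mapSemi_mk_ofIdeals (chartAutRefl c0) (τ : A →+* A) (fun w a => map_smul τ w a)
    ((algSemi c0 A).semiTensor0_bijective τ) ((algSemi c0 A).semiTensor1_bijective τ)
    rfl rfl hL hL'

/-! ### Points -/

/-- The points of the two charts with invertible ideal. -/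
def PtIdx (_c0 : TwoChart W B0 B1 B01) (A : Type u) [CommRing A] [Algebra W A] : Type u :=
  {q : B0 →ₐ[W] A // Module.Invertible (A ⊗[W] B0) (ptIdeal q)} ⊕
    {q : B1 →ₐ[W] A // Module.Invertible (A ⊗[W] B1) (ptIdeal q)}

/-- The class of (the ideal sheaf of) a point. -/
noncomputable def ptCls : PtIdx c0 A → PicX c0 A
  | Sum.inl q => ptClass0 c0 q.1 q.2
  | Sum.inr q => ptClass1 c0 q.1 q.2

/-- The ideal pair of a point. -/
noncomputable def ptPairIdx : PtIdx c0 A → IdealPair (A ⊗[W] B0) (A ⊗[W] B1) (A ⊗[W] B01)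
  | Sum.inl q => ptPair0 c0 q.1
  | Sum.inr q => ptPair1 c0 q.1

theorem ptCls_mem (x : PtIdx c0 A) : ptCls c0 x ∈ (pointClasses c0).PicPt A := by
  rcases x with q | q
  · exact ptClass0_mem_picPt c0 q.1 q.2
  · exact ptClass1_mem_picPt c0 q.1 q.2

/-- The image of a point under `τ`: `q ↦ τ ∘ q`. -/
noncomputable def twistIdx (τ : A ≃ₐ[W] A) : PtIdx c0 A → PtIdx c0 A
  | Sum.inl q => Sum.inl ⟨twistPt0 (trivAction c0 (A ≃ₐ[W] A)) (algSemi c0 A) τ q.1,
      invertible_twistPt0 _ _ τ q.1 q.2⟩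
  | Sum.inr q => Sum.inr ⟨twistPt1 (trivAction c0 (A ≃ₐ[W] A)) (algSemi c0 A) τ q.1,
      invertible_twistPt1 _ _ τ q.1 q.2⟩

theorem twistIdx_inl_apply (τ : A ≃ₐ[W] A)
    (q : {q : B0 →ₐ[W] A // Module.Invertible (A ⊗[W] B0) (ptIdeal q)}) (b : B0) :
    ∃ q' : {q : B0 →ₐ[W] A // Module.Invertible (A ⊗[W] B0) (ptIdeal q)},
      twistIdx c0 τ (Sum.inl q) = Sum.inl q' ∧ q'.1 b = τ (q.1 b) :=
  ⟨_, rfl, rfl⟩

theorem twistIdx_inr_apply (τ : A ≃ₐ[W] A)
    (q : {q : B1 →ₐ[W] A // Module.Invertible (A ⊗[W] B1) (ptIdeal q)}) (b : B1) :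
    ∃ q' : {q : B1 →ₐ[W] A // Module.Invertible (A ⊗[W] B1) (ptIdeal q)},
      twistIdx c0 τ (Sum.inr q) = Sum.inr q' ∧ q'.1 b = τ (q.1 b) :=
  ⟨_, rfl, rfl⟩

/-- **The Galois action on point classes.** -/
theorem galPic_ptCls (τ : A ≃ₐ[W] A) (x : PtIdx c0 A) :
    galPic c0 τ (ptCls c0 x) = ptCls c0 (twistIdx c0 τ x) := by
  rcases x with q | q
  · exact actPic_ptClass0 _ _ τ q.1 q.2 (invertible_twistPt0 _ _ τ q.1 q.2)
  · exact actPic_ptClass1 _ _ τ q.1 q.2 (invertible_twistPt1 _ _ τ q.1 q.2)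

/-- Base change of a point along `A → A'`. -/
noncomputable def bcIdx (A' : Type u) [CommRing A'] [Algebra W A'] [Algebra A A']
    [IsScalarTower W A A'] : PtIdx c0 A → PtIdx c0 A'
  | Sum.inl q => Sum.inl ⟨ptComp A' q.1, invertible_ptIdeal_ptComp0 c0 A' q.1 q.2⟩
  | Sum.inr q => Sum.inr ⟨ptComp A' q.1, invertible_ptIdeal_ptComp1 c0 A' q.1 q.2⟩

/-- Base change of point classes. -/
theorem map_ptCls (A' : Type u) [CommRing A'] [Algebra W A'] [Algebra A A']
    [IsScalarTower W A A'] (x : PtIdx c0 A) :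
    PicX.map c0 A A' (ptCls c0 x) = ptCls c0 (bcIdx c0 A' x) := by
  rcases x with q | q
  · exact map_ptClass0 c0 A' q.1 q.2 (invertible_ptIdeal_ptComp0 c0 A' q.1 q.2)
  · exact map_ptClass1 c0 A' q.1 q.2 (invertible_ptIdeal_ptComp1 c0 A' q.1 q.2)

/-! ### The target of Phi4 -/

/-- **Phi4 DESC', target statement.**  `L` a field over `W`, `G` a finite group of `W`-algebra
automorphisms of `L`, `Ω ⊇ L` a big field (algebraically closed in the application): every
`G`-invariant class `y ∈ PicPt(L)` becomes over `Ω` a quotient of two products of classes of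
`Ω`-points, over multisets of points which are stable under every automorphism `γ` of `Ω` inducing
an element of `G` on `L`. -/
def StableMultisetStatement (L Ω : Type u) [Field L] [Field Ω] [Algebra W L] [Algebra W Ω]
    [Algebra L Ω] [IsScalarTower W L Ω] (G : Subgroup (L ≃ₐ[W] L)) : Prop :=
  ∀ y ∈ (pointClasses c0).PicPt L, (∀ τ ∈ G, galPic c0 τ y = y) →
    ∃ sP sN : Multiset (PtIdx c0 Ω),
      PicX.map c0 L Ω y = (sP.map (ptCls c0)).prod / (sN.map (ptCls c0)).prod ∧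
      ∀ (γ : Ω ≃ₐ[W] Ω) (τ : L ≃ₐ[W] L), τ ∈ G →
        (∀ a : L, γ (algebraMap L Ω a) = algebraMap L Ω (τ a)) →
        sP.map (twistIdx c0 γ) = sP ∧ sN.map (twistIdx c0 γ) = sN

/-- **Phi4 DESC', final target** (`Ω`-form with the finite-level complement): as
`StableMultisetStatement`, and moreover for every intermediate field `L ≤ L' ≤ Ω` over which the
points of `sP`, `sN` are defined, the class identity already holds over `L'`. -/
def DescStatement (L Ω : Type u) [Field L] [Field Ω] [Algebra W L] [Algebra W Ω]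
    [Algebra L Ω] [IsScalarTower W L Ω] (G : Subgroup (L ≃ₐ[W] L)) : Prop :=
  ∀ y ∈ (pointClasses c0).PicPt L, (∀ τ ∈ G, galPic c0 τ y = y) →
    ∃ sP sN : Multiset (PtIdx c0 Ω),
      PicX.map c0 L Ω y = (sP.map (ptCls c0)).prod / (sN.map (ptCls c0)).prod ∧
      (∀ (γ : Ω ≃ₐ[W] Ω) (τ : L ≃ₐ[W] L), τ ∈ G →
        (∀ a : L, γ (algebraMap L Ω a) = algebraMap L Ω (τ a)) →
        sP.map (twistIdx c0 γ) = sP ∧ sN.map (twistIdx c0 γ) = sN) ∧
      ∀ (L' : Type u) [Field L'] [Algebra W L'] [Algebra L L'] [Algebra L' Ω]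
        [IsScalarTower W L L'] [IsScalarTower W L' Ω] [IsScalarTower L L' Ω]
        (sP' sN' : Multiset (PtIdx c0 L')),
        sP'.map (bcIdx c0 Ω) = sP → sN'.map (bcIdx c0 Ω) = sN →
        PicX.map c0 L L' y = (sP'.map (ptCls c0)).prod / (sN'.map (ptCls c0)).prod

theorem DescStatement.stable {L Ω : Type u} [Field L] [Field Ω] [Algebra W L] [Algebra W Ω]
    [Algebra L Ω] [IsScalarTower W L Ω] {G : Subgroup (L ≃ₐ[W] L)}
    (h : DescStatement c0 L Ω G) : StableMultisetStatement c0 L Ω G := fun y hy hinv => by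
  obtain ⟨sP, sN, h1, h2, _⟩ := h y hy hinv
  exact ⟨sP, sN, h1, h2⟩

end Fermat.Agent.T1B.Desc1
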