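/-
Programme T1B (S44 / row 38), NODE/PHI cell, brick Phi4 DESC' (owner helper1): base change of ideal
pairs and of their classes along an extension of FIELDS `L → L'` over `W`.

* `idealPairBC L' D` : the extension of an ideal pair of `X_L` to `X_{L'}`;
* `map_mk_ofIdeals` : `PicX.map c0 L L' [O(-D)] = [O(-D_{L'})]` (over a field every quotient is flat);
* `idealPairGal_idealPairBC` : compatibility with the Galois actions.
-/
import Mathlib
import Fermat.Agent.T1B.Desc1.Iface

set_option autoImplicit false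
set_option linter.unusedSectionVars false
set_option linter.style.haveILetI false

open TensorProduct

namespace Fermat.Agent.T1B.Desc1

open Fermat.Agent.Jac Fermat.Agent.Jac.JSmooth85Alg Fermat.Agent.Jac.JGroup85Pic
open Fermat.Agent.Jac.BaseChange75 Fermat.Agent.Jac.LineOps39 Fermat.Agent.T1.RedIface75
open Fermat.Agent.T1.PtLine75 Fermat.Agent.T1.GalAct44
open scoped Fermat.Agent.Jac.BaseChange75

universe u

variable {W B0 B1 B01 : Type u} [CommRing W] [CommRing B0] [CommRing B1] [CommRing B01]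
  [Algebra W B0] [Algebra W B1] [Algebra W B01] [Algebra B0 B01] [Algebra B1 B01]
  [IsScalarTower W B0 B01] [IsScalarTower W B1 B01]
  (c0 : TwoChart W B0 B1 B01)
  {L : Type u} [CommRing L] [Algebra W L]
  (L' : Type u) [CommRing L'] [Algebra W L'] [Algebra L L'] [IsScalarTower W L L']

/-- The extension of an ideal pair of `X_L` to `X_{L'}`. -/
noncomputable def idealPairBC (D : IdealPair (L ⊗[W] B0) (L ⊗[W] B1) (L ⊗[W] B01)) :
    IdealPair (L' ⊗[W] B0) (L' ⊗[W] B1) (L' ⊗[W] B01) where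
  I0 := D.I0.map (algebraMap (L ⊗[W] B0) (L' ⊗[W] B0))
  I1 := D.I1.map (algebraMap (L ⊗[W] B1) (L' ⊗[W] B1))
  compat := by
    rw [Ideal.map_map, Ideal.map_map, square_comm W L L' B0 B01, square_comm W L L' B1 B01,
      ← Ideal.map_map, ← Ideal.map_map, D.compat]

@[simp] theorem idealPairBC_I0 (D : IdealPair (L ⊗[W] B0) (L ⊗[W] B1) (L ⊗[W] B01)) :
    (idealPairBC L' D).I0 = D.I0.map (algebraMap (L ⊗[W] B0) (L' ⊗[W] B0)) := rfl

@[simp] theorem idealPairBC_I1 (D : IdealPair (L ⊗[W] B0) (L ⊗[W] B1) (L ⊗[W] B01)) :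
    (idealPairBC L' D).I1 = D.I1.map (algebraMap (L ⊗[W] B1) (L' ⊗[W] B1)) := rfl

theorem idealPairBC_isBC (D : IdealPair (L ⊗[W] B0) (L ⊗[W] B1) (L ⊗[W] B01)) :
    D.IsBC (idealPairBC L' D) :=
  ⟨rfl, rfl⟩

/-- `γ ⊗ id` and `τ ⊗ id` are compatible with `L ⊗ B → L' ⊗ B`. -/
theorem galTensorHom_algebraMap_left (γ : L' ≃ₐ[W] L') (τ : L ≃ₐ[W] L)
    (h : ∀ a : L, γ (algebraMap L L' a) = algebraMap L L' (τ a))
    (B : Type u) [CommRing B] [Algebra W B] (x : L ⊗[W] B) :
    galTensorHom γ B (algebraMap (L ⊗[W] B) (L' ⊗[W] B) x) =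
      algebraMap (L ⊗[W] B) (L' ⊗[W] B) (galTensorHom τ B x) := by
  induction x using TensorProduct.induction_on with
  | zero => simp
  | tmul a b =>
    rw [algebraMap_left_tmul, galTensorHom_tmul, galTensorHom_tmul, algebraMap_left_tmul, h]
  | add x y hx hy => rw [map_add, map_add, map_add, map_add, hx, hy]

include c0 in
/-- Compatibility of the extension with the Galois actions. -/
theorem idealPairGal_idealPairBC (γ : L' ≃ₐ[W] L') (τ : L ≃ₐ[W] L)
    (h : ∀ a : L, γ (algebraMap L L' a) = algebraMap L L' (τ a))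
    (D : IdealPair (L ⊗[W] B0) (L ⊗[W] B1) (L ⊗[W] B01)) :
    idealPairGal c0 γ (idealPairBC L' D) = idealPairBC L' (idealPairGal c0 τ D) := by
  have key : ∀ (B : Type u) [CommRing B] [Algebra W B],
      (galTensorHom γ B).comp (algebraMap (L ⊗[W] B) (L' ⊗[W] B)) =
        (algebraMap (L ⊗[W] B) (L' ⊗[W] B)).comp (galTensorHom τ B) := fun B _ _ =>
    RingHom.ext fun x => galTensorHom_algebraMap_left L' γ τ h B x
  refine idealPair_ext ?_ ?_
  · show (D.I0.map _).map (galTensorHom γ B0) = (D.I0.map (galTensorHom τ B0)).map _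
    rw [Ideal.map_map, Ideal.map_map, key B0]
  · show (D.I1.map _).map (galTensorHom γ B1) = (D.I1.map (galTensorHom τ B1)).map _
    rw [Ideal.map_map, Ideal.map_map, key B1]

end Fermat.Agent.T1B.Desc1

namespace Fermat.Agent.T1B.Desc1

open Fermat.Agent.Jac Fermat.Agent.Jac.JSmooth85Alg Fermat.Agent.Jac.JGroup85Pic
open Fermat.Agent.Jac.BaseChange75 Fermat.Agent.Jac.LineOps39 Fermat.Agent.T1.RedIface75
open Fermat.Agent.T1.PtLine75 Fermat.Agent.T1.GalAct44
open scoped Fermat.Agent.Jac.BaseChange75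

universe u

variable {W B0 B1 B01 : Type u} [CommRing W] [CommRing B0] [CommRing B1] [CommRing B01]
  [Algebra W B0] [Algebra W B1] [Algebra W B01] [Algebra B0 B01] [Algebra B1 B01]
  [IsScalarTower W B0 B01] [IsScalarTower W B1 B01]
  (c0 : TwoChart W B0 B1 B01)
  {L : Type u} [Field L] [Algebra W L]
  (L' : Type u) [CommRing L'] [Algebra W L'] [Algebra L L'] [IsScalarTower W L L']

/-- The ideal sheaf of an ideal pair over a field commutes with base change. -/
noncomputable def liftDataBC (D : IdealPair (L ⊗[W] B0) (L ⊗[W] B1) (L ⊗[W] B01)) :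
    LiftData (ofIdeals (c0.baseChange L) D)
      (ofIdeals (c0.baseChange L') (idealPairBC L' D)) :=
  liftDataOfIdealsOfPushout (square_comm W L L' B0 B01) (square_comm W L L' B1 B01)
    (c0.baseChange L) (c0.baseChange L') (idealPairBC_isBC L' D)
    inferInstance inferInstance

theorem isLine_idealPairBC (D : IdealPair (L ⊗[W] B0) (L ⊗[W] B1) (L ⊗[W] B01))
    (hD : (ofIdeals (c0.baseChange L) D).IsLine) :
    (ofIdeals (c0.baseChange L') (idealPairBC L' D)).IsLine :=
  LiftData.isLine (liftDataBC c0 L' D) hD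

/-- **Base change of the class of an ideal sheaf along a field extension.** -/
theorem map_mk_ofIdeals (D : IdealPair (L ⊗[W] B0) (L ⊗[W] B1) (L ⊗[W] B01))
    (hD : (ofIdeals (c0.baseChange L) D).IsLine)
    (hD' : (ofIdeals (c0.baseChange L') (idealPairBC L' D)).IsLine) :
    PicX.map c0 L L' (LinePic.mk (c0.baseChange L) (ofIdeals (c0.baseChange L) D) hD) =
      LinePic.mk (c0.baseChange L') (ofIdeals (c0.baseChange L') (idealPairBC L' D)) hD' :=
  LinePic.bc_mk _ _ _ _ hD (liftDataBC c0 L' D)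

end Fermat.Agent.T1B.Desc1
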