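/-
Programme T1B (S44 / row 38), NODE/PHI cell, brick Phi4 DESC' (owner helper1): THE ABSTRACT CORE.

`c : TwoChart A R0 R1 R01` a two-chart curve over a FIELD `A` with Dedekind charts, all three chart
rings inside a field `F` (`Adapt96.EmbedsIn`, `F` the fraction field of both charts); a finite group
`G` acting on the whole diagram `A → R0, R1 → F` by ring automorphisms (`Act`), faithfully on `A`;
a normalisation `lc : F →*₀ A` (in the application: the leading coefficient of the `q`-expansion at a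
rational cusp), the identity on constants and `G`-equivariant; `H⁰(O_X) = A` (`Red68.H0Const`).

**`exists_stable_scale`**: if `D` is an ideal pair (an effective divisor) with `g D = f_g • D` for
every `g ∈ G` (i.e. `O(-gD) ≅ O(-D)`: the class of `D` is `G`-invariant), then there is `b ∈ Fˣ`
such that `J := b • D` is an INTEGRAL, `G`-STABLE ideal pair (so `O(-J) ≅ O(-D)` by
`Adapt96.isoOfScale`).

Proof: normalise `lc (f_g) = 1`; then `f_{gh} = g(f_h) f_g` (the quotient `u` satisfies `u • D = D`,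
so `u ∈ H⁰(O_X) = A`, and `lc u = 1`); Poincaré series `b = ∑_g f_g · g(λ)`, `λ ∈ A` (Dedekind
independence of the characters `g|_A`), `h(b) = b / f_h`; `b • D ⊆ ∑_g f_g • D ⊆ O`.
-/
import Mathlib
import Fermat.Agent.T1.Adapt96.IdealIso
import Fermat.Agent.T1.Red68.Descent

set_option autoImplicit false
set_option linter.unusedSectionVars false

universe u v w

namespace Fermat.Agent.T1B.Desc1.Core

open Fermat.Agent.Jac Fermat.Agent.Jac.LineOps39 Fermat.Agent.T1.Adapt96 Fermat.Agent.T1.Red68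

/-! ### One ring inside a field -/

section One

variable {R : Type u} {F : Type v} [CommRing R] [Field F] [Algebra R F]

/-- Composition of scalings. -/
theorem scale_comp {f g : F} {I I' I'' : Ideal R} (h : IsScaleIdeal f I I')
    (h' : IsScaleIdeal g I' I'') : IsScaleIdeal (g * f) I I'' := by
  refine ⟨fun y hy => ?_, fun z hz => ?_⟩
  · obtain ⟨x, hx, hxy⟩ := h.1 y hy
    obtain ⟨z, hz, hzx⟩ := h'.1 x hx
    exact ⟨z, hz, by rw [hzx, hxy, mul_assoc]⟩
  · obtain ⟨x, hx, hzx⟩ := h'.2 z hz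
    obtain ⟨y, hy, hxy⟩ := h.2 x hx
    exact ⟨y, hy, by rw [hzx, hxy, mul_assoc]⟩

/-- The target of a scaling is determined by the source and the scalar. -/
theorem scale_unique (hinj : Function.Injective (algebraMap R F)) {f : F}
    {I I' I'' : Ideal R} (h : IsScaleIdeal f I I') (h' : IsScaleIdeal f I I'') : I' = I'' := by
  apply le_antisymm
  · intro x hx
    obtain ⟨y, hy, hxy⟩ := h.2 x hx
    obtain ⟨x', hx', hxy'⟩ := h'.1 y hy
    have : x = x' := hinj (hxy.trans hxy'.symm)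
    rw [this]; exact hx'
  · intro x hx
    obtain ⟨y, hy, hxy⟩ := h'.2 x hx
    obtain ⟨x', hx', hxy'⟩ := h.1 y hy
    have : x = x' := hinj (hxy.trans hxy'.symm)
    rw [this]; exact hx'

/-- A nonzero scaling of a nonzero ideal is nonzero. -/
theorem scale_ne_bot (hinj : Function.Injective (algebraMap R F)) {f : F} (hf : f ≠ 0)
    {I I' : Ideal R} (h : IsScaleIdeal f I I') (hI : I ≠ ⊥) : I' ≠ ⊥ := by
  obtain ⟨y, hy, hy0⟩ := Submodule.exists_mem_ne_zero_of_ne_bot hI
  obtain ⟨x, hx, hxy⟩ := h.1 y hy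
  intro hbot
  rw [hbot] at hx
  have hx0 : x = 0 := (Submodule.mem_bot R).mp hx
  rw [hx0, map_zero] at hxy
  have hy' : algebraMap R F y ≠ 0 := fun h0 => hy0 (hinj (by rw [h0, map_zero]))
  exact (mul_ne_zero hf hy') hxy.symm

/-- Transport of a scaling along a ring automorphism of `R` extending to `F`. -/
theorem scale_mapEquiv (s : R ≃+* R) (sF : F ≃+* F)
    (hs : ∀ x, sF (algebraMap R F x) = algebraMap R F (s x)) {f : F} {I I' : Ideal R}
    (h : IsScaleIdeal f I I') :
    IsScaleIdeal (sF f) (I.map (s : R →+* R)) (I'.map (s : R →+* R)) := by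
  refine ⟨fun y hy => ?_, fun x hx => ?_⟩
  · obtain ⟨y0, hy0, rfl⟩ := (Ideal.mem_map_of_equiv s y).mp hy
    obtain ⟨x0, hx0, hxy⟩ := h.1 y0 hy0
    refine ⟨s x0, (Ideal.mem_map_of_equiv s _).mpr ⟨x0, hx0, rfl⟩, ?_⟩
    rw [← hs, ← hs, hxy, map_mul]
  · obtain ⟨x0, hx0, rfl⟩ := (Ideal.mem_map_of_equiv s x).mp hx
    obtain ⟨y0, hy0, hxy⟩ := h.2 x0 hx0
    refine ⟨s y0, (Ideal.mem_map_of_equiv s _).mpr ⟨y0, hy0, rfl⟩, ?_⟩
    rw [← hs, ← hs, hxy, map_mul]

/-- Scaling by a nonzero constant of a base field does not move an ideal. -/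
theorem isScaleIdeal_const {A : Type w} [Field A] [Algebra A R] [Algebra A F]
    [IsScalarTower A R F] {a : A} (ha : a ≠ 0) (I : Ideal R) :
    IsScaleIdeal (algebraMap A F a) I I := by
  refine ⟨fun y hy => ⟨a • y, Submodule.smul_of_tower_mem I a hy, ?_⟩,
    fun x hx => ⟨a⁻¹ • x, Submodule.smul_of_tower_mem I a⁻¹ hx, ?_⟩⟩
  · rw [Algebra.smul_def, map_mul, ← IsScalarTower.algebraMap_apply]
  · rw [Algebra.smul_def, map_mul, ← IsScalarTower.algebraMap_apply, ← mul_assoc, ← map_mul,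
      mul_inv_cancel₀ ha, map_one, one_mul]

/-- **A scalar stabilising a nonzero ideal of an integrally closed noetherian domain is an element
of the ring.** -/
theorem exists_algebraMap_eq_of_isScaleIdeal_self [IsDomain R] [IsNoetherianRing R]
    [IsIntegrallyClosed R] [IsFractionRing R F] {u : F} {I : Ideal R} (hI : I ≠ ⊥)
    (h : IsScaleIdeal u I I) : ∃ x : R, algebraMap R F x = u := by
  have hinj : Function.Injective (algebraMap R F) := IsFractionRing.injective R F
  let N : Submodule R F := Submodule.map (Algebra.linearMap R F) I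
  have hN : N ≠ ⊥ := by
    obtain ⟨y, hy, hy0⟩ := Submodule.exists_mem_ne_zero_of_ne_bot hI
    intro hbot
    have hmem : algebraMap R F y ∈ N := ⟨y, hy, rfl⟩
    rw [hbot] at hmem
    exact hy0 (hinj (by rw [(Submodule.mem_bot R).mp hmem, map_zero]))
  have hNfg : N.FG := (IsNoetherian.noetherian I).map _
  have hint : IsIntegral R u := by
    refine isIntegral_of_smul_mem_submodule N hN hNfg u ?_
    rintro _ ⟨y, hy, rfl⟩
    obtain ⟨x, hx, hxy⟩ := h.1 y hy
    exact ⟨x, hx, by rw [smul_eq_mul]; exact hxy⟩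
  exact IsIntegrallyClosed.isIntegral_iff.mp hint

end One

/-! ### The action on the diagram `A → R0, R1 → F` -/

section Core

variable {A R0 R1 R01 : Type u} [Field A] [CommRing R0] [CommRing R1] [CommRing R01]
  [Algebra A R0] [Algebra A R1] [Algebra A R01] [Algebra R0 R01] [Algebra R1 R01]
  [IsScalarTower A R0 R01] [IsScalarTower A R1 R01]
  {F : Type v} [Field F] [Algebra R0 F] [Algebra R1 F] [Algebra R01 F] [Algebra A F]
  [IsScalarTower R0 R01 F] [IsScalarTower R1 R01 F] [IsScalarTower A R0 F] [IsScalarTower A R1 F]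

/-- An action of the group `G` on the diagram `A → R0, R1 → F` by ring automorphisms, faithful on
the constants `A`. -/
structure Act (A : Type u) (R0 R1 : Type u) (F : Type v) [Field A] [CommRing R0] [CommRing R1]
    [Field F] [Algebra R0 F] [Algebra R1 F] [Algebra A F] (G : Type w) [Group G] where
  sA : G → A ≃+* A
  s0 : G → R0 ≃+* R0
  s1 : G → R1 ≃+* R1
  sF : G → F ≃+* F
  sF_mul : ∀ g h x, sF (g * h) x = sF g (sF h x)
  sF_0 : ∀ g x, sF g (algebraMap R0 F x) = algebraMap R0 F (s0 g x)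
  sF_1 : ∀ g x, sF g (algebraMap R1 F x) = algebraMap R1 F (s1 g x)
  sF_A : ∀ g a, sF g (algebraMap A F a) = algebraMap A F (sA g a)
  faithful : ∀ g h, (∀ a, sA g a = sA h a) → g = h

variable {G : Type w} [Group G] (act : Act A R0 R1 F G)

namespace Act

theorem sF_one (x : F) : act.sF 1 x = x := by
  have h := act.sF_mul 1 1 x
  rw [one_mul] at h
  exact ((act.sF 1).injective h).symm

theorem sF_inv_apply (g : G) (x : F) : act.sF g⁻¹ (act.sF g x) = x := by
  rw [← act.sF_mul, inv_mul_cancel, act.sF_one]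

theorem sF_apply_inv (g : G) (x : F) : act.sF g (act.sF g⁻¹ x) = x := by
  rw [← act.sF_mul, mul_inv_cancel, act.sF_one]

theorem sA_mul (g h : G) (a : A) : act.sA (g * h) a = act.sA g (act.sA h a) := by
  apply (algebraMap A F).injective
  rw [← act.sF_A, act.sF_mul, act.sF_A, act.sF_A]

theorem s0_mul (hinj : Function.Injective (algebraMap R0 F)) (g h : G) (x : R0) :
    act.s0 (g * h) x = act.s0 g (act.s0 h x) := by
  apply hinj
  rw [← act.sF_0, act.sF_mul, act.sF_0, act.sF_0]

theorem s1_mul (hinj : Function.Injective (algebraMap R1 F)) (g h : G) (x : R1) :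
    act.s1 (g * h) x = act.s1 g (act.s1 h x) := by
  apply hinj
  rw [← act.sF_1, act.sF_mul, act.sF_1, act.sF_1]

theorem s0_one (hinj : Function.Injective (algebraMap R0 F)) (x : R0) : act.s0 1 x = x := by
  apply hinj
  rw [← act.sF_0, act.sF_one]

theorem s1_one (hinj : Function.Injective (algebraMap R1 F)) (x : R1) : act.s1 1 x = x := by
  apply hinj
  rw [← act.sF_1, act.sF_one]

theorem map_s0_mul (hinj : Function.Injective (algebraMap R0 F)) (g h : G) (I : Ideal R0) :
    (I.map (act.s0 h : R0 →+* R0)).map (act.s0 g : R0 →+* R0) =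
      I.map (act.s0 (g * h) : R0 →+* R0) := by
  rw [Ideal.map_map]
  congr 1
  ext x
  exact (act.s0_mul hinj g h x).symm

theorem map_s1_mul (hinj : Function.Injective (algebraMap R1 F)) (g h : G) (I : Ideal R1) :
    (I.map (act.s1 h : R1 →+* R1)).map (act.s1 g : R1 →+* R1) =
      I.map (act.s1 (g * h) : R1 →+* R1) := by
  rw [Ideal.map_map]
  congr 1
  ext x
  exact (act.s1_mul hinj g h x).symm

theorem map_s0_one (hinj : Function.Injective (algebraMap R0 F)) (I : Ideal R0) :
    I.map (act.s0 1 : R0 →+* R0) = I := by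
  have : (act.s0 1 : R0 →+* R0) = RingHom.id R0 := by
    ext x; exact act.s0_one hinj x
  rw [this, Ideal.map_id]

theorem map_s1_one (hinj : Function.Injective (algebraMap R1 F)) (I : Ideal R1) :
    I.map (act.s1 1 : R1 →+* R1) = I := by
  have : (act.s1 1 : R1 →+* R1) = RingHom.id R1 := by
    ext x; exact act.s1_one hinj x
  rw [this, Ideal.map_id]

end Act

/-- The class of the ideal pair `D` is `G`-invariant: `g D = f • D` for some `f ∈ Fˣ`. -/
def InvariantClass (D : IdealPair R0 R1 R01) : Prop :=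
  ∀ g : G, ∃ f : F, f ≠ 0 ∧ IsScaleIdeal f D.I0 (D.I0.map (act.s0 g : R0 →+* R0)) ∧
    IsScaleIdeal f D.I1 (D.I1.map (act.s1 g : R1 →+* R1))

/-- The ideal pair `J` is `G`-stable. -/
def StablePair (J : IdealPair R0 R1 R01) : Prop :=
  ∀ g : G, J.I0.map (act.s0 g : R0 →+* R0) = J.I0 ∧ J.I1.map (act.s1 g : R1 →+* R1) = J.I1

variable (c : TwoChart A R0 R1 R01) (hF : EmbedsIn R0 R1 R01 F)
  [IsDedekindDomain R0] [IsDedekindDomain R1] [IsFractionRing R0 F] [IsFractionRing R1 F]
  (lc : F →*₀ A) (hlcA : ∀ a : A, lc (algebraMap A F a) = a)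
  (hlcG : ∀ (g : G) (x : F), lc (act.sF g x) = act.sA g (lc x))
  (hH0 : H0Const c)

include hF hH0 hlcA in
/-- **Units are constants**: a scalar fixing the ideal pair `D` is a constant. -/
theorem exists_const_of_isScalePair_self {u : F} {D : IdealPair R0 R1 R01} (hD0 : D.I0 ≠ ⊥)
    (hD1 : D.I1 ≠ ⊥) (h0 : IsScaleIdeal u D.I0 D.I0) (h1 : IsScaleIdeal u D.I1 D.I1) :
    algebraMap A F (lc u) = u := by
  obtain ⟨x0, hx0⟩ := exists_algebraMap_eq_of_isScaleIdeal_self hD0 h0
  obtain ⟨x1, hx1⟩ := exists_algebraMap_eq_of_isScaleIdeal_self hD1 h1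
  have h01 : algebraMap R0 R01 x0 = algebraMap R1 R01 x1 := by
    apply hF.inj01
    rw [← IsScalarTower.algebraMap_apply, ← IsScalarTower.algebraMap_apply, hx0, hx1]
  obtain ⟨a, ha0, _⟩ := hH0 x0 x1 h01
  have hu : algebraMap A F a = u := by
    rw [IsScalarTower.algebraMap_apply A R0 F, ha0, hx0]
  rw [← hu, hlcA]

variable [Fintype G]

include hF hH0 hlcA hlcG in
/-- **Phi4 DESC', abstract core.**  A `G`-invariant class of an effective divisor `D` contains a
`G`-stable effective divisor `J = b • D`. -/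
theorem exists_stable_scale (D : IdealPair R0 R1 R01) (hD0 : D.I0 ≠ ⊥) (hD1 : D.I1 ≠ ⊥)
    (hinv : InvariantClass act D) :
    ∃ (b : F) (J : IdealPair R0 R1 R01), b ≠ 0 ∧ IsScalePair b D J ∧ J.I0 ≠ ⊥ ∧ J.I1 ≠ ⊥ ∧
      StablePair act J := by
  classical
  have hinj0 := hF.inj0
  have hinj1 := hF.inj1
  -- Step A: normalised scalars
  have hA : ∀ g : G, ∃ f : F, f ≠ 0 ∧ lc f = 1 ∧
      IsScaleIdeal f D.I0 (D.I0.map (act.s0 g : R0 →+* R0)) ∧
      IsScaleIdeal f D.I1 (D.I1.map (act.s1 g : R1 →+* R1)) := by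
    intro g
    obtain ⟨f', hf', h0, h1⟩ := hinv g
    have ha : lc f' ≠ 0 := (map_ne_zero lc).mpr hf'
    have ha' : (lc f')⁻¹ ≠ 0 := inv_ne_zero ha
    refine ⟨algebraMap A F (lc f')⁻¹ * f', mul_ne_zero ?_ hf', ?_, ?_, ?_⟩
    · exact (map_ne_zero (algebraMap A F)).mpr ha'
    · rw [map_mul, hlcA, inv_mul_cancel₀ ha]
    · exact scale_comp h0 (isScaleIdeal_const ha' _)
    · exact scale_comp h1 (isScaleIdeal_const ha' _)
  choose f hf hlcf hf0 hf1 using hA
  -- Step B: the cocycle relation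
  have hcoc : ∀ g h : G, f (g * h) = act.sF g (f h) * f g := by
    intro g h
    have e0 : IsScaleIdeal (act.sF g (f h) * f g) D.I0 (D.I0.map (act.s0 (g * h) : R0 →+* R0)) := by
      have := scale_comp (hf0 g)
        (scale_mapEquiv (act.s0 g) (act.sF g) (act.sF_0 g) (hf0 h))
      rwa [act.map_s0_mul hinj0] at this
    have e1 : IsScaleIdeal (act.sF g (f h) * f g) D.I1 (D.I1.map (act.s1 (g * h) : R1 →+* R1)) := by
      have := scale_comp (hf1 g)
        (scale_mapEquiv (act.s1 g) (act.sF g) (act.sF_1 g) (hf1 h))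
      rwa [act.map_s1_mul hinj1] at this
    set u : F := (f (g * h))⁻¹ * (act.sF g (f h) * f g) with hu
    have u0 : IsScaleIdeal u D.I0 D.I0 := scale_comp e0 ((hf0 (g * h)).symm (hf (g * h)))
    have u1 : IsScaleIdeal u D.I1 D.I1 := scale_comp e1 ((hf1 (g * h)).symm (hf (g * h)))
    have hconst := exists_const_of_isScalePair_self c hF lc hlcA hH0 hD0 hD1 u0 u1
    have hlcu : lc u = 1 := by
      rw [hu, map_mul, map_mul, map_inv₀, hlcf, hlcG, hlcf, hlcf, map_one, inv_one, one_mul,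
        one_mul]
    rw [hlcu, map_one] at hconst
    have : f (g * h) * u = act.sF g (f h) * f g := by
      rw [hu, ← mul_assoc, mul_inv_cancel₀ (hf (g * h)), one_mul]
    rw [← this, ← hconst, mul_one]
  -- Step C: the Poincaré series
  let χ : G → (A →* F) := fun g =>
    ((algebraMap A F).comp (act.sA g : A →+* A)).toMonoidHom
  have hχinj : Function.Injective χ := by
    intro g h hgh
    apply act.faithful
    intro a
    have := congrArg (fun φ : A →* F => φ a) hgh
    exact (algebraMap A F).injective this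
  have hli : LinearIndependent F (fun g : G => ((χ g : A →* F) : A → F)) :=
    (linearIndependent_monoidHom A F).comp χ hχinj
  have hex : ∃ l : A, ∑ g : G, f g * algebraMap A F (act.sA g l) ≠ 0 := by
    by_contra hcon
    have hcon' : ∀ l : A, ∑ g : G, f g * algebraMap A F (act.sA g l) = 0 := by
      intro l
      by_contra hne
      exact hcon ⟨l, hne⟩
    have h1 : ∑ g : G, f g • ((χ g : A →* F) : A → F) = 0 := by
      funext l
      rw [Finset.sum_apply]
      simpa [χ] using hcon' l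
    have h2 := Fintype.linearIndependent_iff.mp hli f h1
    exact hf 1 (h2 1)
  obtain ⟨l, hl⟩ := hex
  set b : F := ∑ g : G, f g * algebraMap A F (act.sA g l) with hb
  have hsb : ∀ h : G, act.sF h b = (f h)⁻¹ * b := by
    intro h
    rw [hb, map_sum, Finset.mul_sum]
    rw [← Equiv.sum_comp (Equiv.mulLeft h)
      (fun g => (f h)⁻¹ * (f g * algebraMap A F (act.sA g l)))]
    refine Finset.sum_congr rfl fun g _ => ?_
    simp only [Equiv.coe_mulLeft]
    rw [map_mul, act.sF_A, hcoc h g, act.sA_mul]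
    have := hf h
    field_simp
  -- Step D: the ideal pair `J = b • D`
  have hint0 : ∀ y ∈ D.I0, ∃ x : R0, algebraMap R0 F x = b * algebraMap R0 F y := by
    intro y hy
    have hx : ∀ g : G, ∃ x : R0, algebraMap R0 F x = f g * algebraMap R0 F y := fun g => by
      obtain ⟨x, _, hxy⟩ := (hf0 g).1 y hy
      exact ⟨x, hxy⟩
    choose x hx using hx
    refine ⟨∑ g : G, act.sA g l • x g, ?_⟩
    rw [map_sum, hb, Finset.sum_mul]
    refine Finset.sum_congr rfl fun g _ => ?_
    rw [Algebra.smul_def, map_mul, ← IsScalarTower.algebraMap_apply, hx g]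
    ring
  have hint1 : ∀ y ∈ D.I1, ∃ x : R1, algebraMap R1 F x = b * algebraMap R1 F y := by
    intro y hy
    have hx : ∀ g : G, ∃ x : R1, algebraMap R1 F x = f g * algebraMap R1 F y := fun g => by
      obtain ⟨x, _, hxy⟩ := (hf1 g).1 y hy
      exact ⟨x, hxy⟩
    choose x hx using hx
    refine ⟨∑ g : G, act.sA g l • x g, ?_⟩
    rw [map_sum, hb, Finset.sum_mul]
    refine Finset.sum_congr rfl fun g _ => ?_
    rw [Algebra.smul_def, map_mul, ← IsScalarTower.algebraMap_apply, hx g]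
    ring
  let J0 : Ideal R0 :=
    { carrier := {x | ∃ y ∈ D.I0, algebraMap R0 F x = b * algebraMap R0 F y}
      add_mem' := by
        rintro x x' ⟨y, hy, hxy⟩ ⟨y', hy', hxy'⟩
        exact ⟨y + y', D.I0.add_mem hy hy', by rw [map_add, map_add, hxy, hxy', mul_add]⟩
      zero_mem' := ⟨0, D.I0.zero_mem, by simp⟩
      smul_mem' := by
        rintro r x ⟨y, hy, hxy⟩
        refine ⟨r * y, D.I0.mul_mem_left r hy, ?_⟩
        rw [smul_eq_mul, map_mul, map_mul, hxy]; ring }
  let J1 : Ideal R1 :=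
    { carrier := {x | ∃ y ∈ D.I1, algebraMap R1 F x = b * algebraMap R1 F y}
      add_mem' := by
        rintro x x' ⟨y, hy, hxy⟩ ⟨y', hy', hxy'⟩
        exact ⟨y + y', D.I1.add_mem hy hy', by rw [map_add, map_add, hxy, hxy', mul_add]⟩
      zero_mem' := ⟨0, D.I1.zero_mem, by simp⟩
      smul_mem' := by
        rintro r x ⟨y, hy, hxy⟩
        refine ⟨r * y, D.I1.mul_mem_left r hy, ?_⟩
        rw [smul_eq_mul, map_mul, map_mul, hxy]; ring }
  have hJ0 : IsScaleIdeal b D.I0 J0 := by
    refine ⟨fun y hy => ?_, fun x hx => hx⟩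
    obtain ⟨x, hx⟩ := hint0 y hy
    exact ⟨x, ⟨y, hy, hx⟩, hx⟩
  have hJ1 : IsScaleIdeal b D.I1 J1 := by
    refine ⟨fun y hy => ?_, fun x hx => hx⟩
    obtain ⟨x, hx⟩ := hint1 y hy
    exact ⟨x, ⟨y, hy, hx⟩, hx⟩
  have hcompat : J0.map (algebraMap R0 R01) = J1.map (algebraMap R1 R01) := by
    have e0 : IsScaleIdeal b (D.I0.map (algebraMap R0 R01)) (J0.map (algebraMap R0 R01)) :=
      hJ0.map hl
    have e1 : IsScaleIdeal b (D.I1.map (algebraMap R1 R01)) (J1.map (algebraMap R1 R01)) :=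
      hJ1.map hl
    rw [← D.compat] at e1
    exact scale_unique hF.inj01 e0 e1
  -- Step E: stability
  have hst0 : ∀ h : G, J0.map (act.s0 h : R0 →+* R0) ≤ J0 := by
    intro h x hx
    obtain ⟨x', ⟨y, hy, hxy⟩, rfl⟩ := (Ideal.mem_map_of_equiv (act.s0 h) x).mp hx
    have hmem : act.s0 h y ∈ D.I0.map (act.s0 h : R0 →+* R0) :=
      (Ideal.mem_map_of_equiv (act.s0 h) _).mpr ⟨y, hy, rfl⟩
    obtain ⟨y', hy', hyy'⟩ := (hf0 h).2 _ hmem
    refine ⟨y', hy', ?_⟩
    rw [← act.sF_0, hxy, map_mul, hsb, act.sF_0, hyy']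
    have := hf h
    field_simp
  have hst1 : ∀ h : G, J1.map (act.s1 h : R1 →+* R1) ≤ J1 := by
    intro h x hx
    obtain ⟨x', ⟨y, hy, hxy⟩, rfl⟩ := (Ideal.mem_map_of_equiv (act.s1 h) x).mp hx
    have hmem : act.s1 h y ∈ D.I1.map (act.s1 h : R1 →+* R1) :=
      (Ideal.mem_map_of_equiv (act.s1 h) _).mpr ⟨y, hy, rfl⟩
    obtain ⟨y', hy', hyy'⟩ := (hf1 h).2 _ hmem
    refine ⟨y', hy', ?_⟩
    rw [← act.sF_1, hxy, map_mul, hsb, act.sF_1, hyy']
    have := hf h
    field_simp
  refine ⟨b, ⟨J0, J1, hcompat⟩, hl, ⟨hJ0, hJ1⟩, scale_ne_bot hinj0 hl hJ0 hD0, scale_ne_bot hinj1 hl hJ1 hD1,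
    fun h => ⟨le_antisymm (hst0 h) ?_, le_antisymm (hst1 h) ?_⟩⟩
  · have h1 := Ideal.map_mono (f := (act.s0 h : R0 →+* R0)) (hst0 h⁻¹)
    rwa [act.map_s0_mul hinj0, mul_inv_cancel, act.map_s0_one hinj0] at h1
  · have h1 := Ideal.map_mono (f := (act.s1 h : R1 →+* R1)) (hst1 h⁻¹)
    rwa [act.map_s1_mul hinj1, mul_inv_cancel, act.map_s1_one hinj1] at h1

end Core

end Fermat.Agent.T1B.Desc1.Core
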