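/-
Programme T1B (S44 / row 38), NODE/PHI cell, brick Phi4 DESC' (owner helper1): THE CORE AT THE HUB.

`c0 : TwoChart W B0 B1 B01`, `L` a field over `W` with Dedekind charts `L ⊗[W] B0`, `L ⊗[W] B1` and
`L ⊗[W] B01` a domain, `F := FractionRing (L ⊗[W] B01)` the function field of `X_L`, `G` a finite
group of `W`-algebra automorphisms of `L`.

* `isFractionRing_of_away` : `Frac (R[1/t]) = Frac R`;
* `hubAct c0 L G : Core.Act L (L ⊗[W] B0) (L ⊗[W] B1) F G` : the action of `G` on the diagram;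
* `lcF` : the extension to `F` of a normalisation `lc : L ⊗[W] B01 →*₀ L`;
* **`exists_stable_pair`** : an ideal pair `D` of `X_L` (nonzero ideals) whose class is `G`-invariant
  is linearly equivalent to a `G`-STABLE ideal pair `J`.
-/
import Mathlib
import Fermat.Agent.T1B.Desc1.Iface
import Fermat.Agent.T1B.Desc1.Core
import Fermat.Agent.Jac.AbelJacobi73.Factor
import Fermat.Agent.Jac.AbelJacobi73.Effective

set_option autoImplicit false
set_option linter.unusedSectionVars false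
set_option linter.style.haveILetI false

open TensorProduct

namespace Fermat.Agent.T1B.Desc1

open Fermat.Agent.Jac Fermat.Agent.Jac.JSmooth85Alg Fermat.Agent.Jac.JGroup85Pic
open Fermat.Agent.Jac.BaseChange75 Fermat.Agent.Jac.LineOps39 Fermat.Agent.T1.RedIface75
open Fermat.Agent.T1.PtLine75 Fermat.Agent.T1.GalAct44 Fermat.Agent.T1.CentresClass47
open Fermat.Agent.T1.Adapt96 Fermat.Agent.T1.Red68 Fermat.Agent.Jac.AbelJacobi73
open scoped Fermat.Agent.Jac.BaseChange75

universe u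

/-! ### `Frac (R[1/t]) = Frac R` -/

theorem isFractionRing_of_away {R S K : Type*} [CommRing R] [CommRing S] [Field K] [Algebra R S]
    [Algebra S K] [Algebra R K] [IsScalarTower R S K] (t : R) [IsLocalization.Away t S]
    [IsFractionRing S K] (hinj : Function.Injective (algebraMap R S)) : IsFractionRing R K := by
  have hinjK : Function.Injective (algebraMap R K) := by
    rw [IsScalarTower.algebraMap_eq R S K]
    exact (IsFractionRing.injective S K).comp hinj
  haveI : FaithfulSMul R K := (faithfulSMul_iff_algebraMap_injective R K).mpr hinjK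
  haveI : Nontrivial S := RingHom.domain_nontrivial (algebraMap S K)
  refine IsFractionRing.of_field R K fun z => ?_
  obtain ⟨a, b, hb, rfl⟩ := IsFractionRing.div_surjective (A := S) z
  obtain ⟨⟨a', ⟨_, n, rfl⟩⟩, ha⟩ := IsLocalization.surj (Submonoid.powers t) a
  obtain ⟨⟨b', ⟨_, m, rfl⟩⟩, hb'⟩ := IsLocalization.surj (Submonoid.powers t) b
  have ha' : a * algebraMap R S (t ^ n) = algebraMap R S a' := ha
  have hb'' : b * algebraMap R S (t ^ m) = algebraMap R S b' := hb'
  have htS : IsUnit (algebraMap R S t) :=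
    IsLocalization.map_units (M := Submonoid.powers t) S ⟨t, Submonoid.mem_powers t⟩
  have htK : algebraMap R K t ≠ 0 := by
    rw [IsScalarTower.algebraMap_apply R S K]
    exact (htS.map (algebraMap S K)).ne_zero
  have hbK : algebraMap S K b ≠ 0 :=
    (map_ne_zero_iff _ (IsFractionRing.injective S K)).mpr (nonZeroDivisors.ne_zero hb)
  refine ⟨a' * t ^ m, b' * t ^ n, ?_⟩
  have e1 : algebraMap R K a' = algebraMap S K a * algebraMap R K t ^ n := by
    rw [IsScalarTower.algebraMap_apply R S K a', ← ha', map_mul, ← IsScalarTower.algebraMap_apply,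
      map_pow]
  have e2 : algebraMap R K b' = algebraMap S K b * algebraMap R K t ^ m := by
    rw [IsScalarTower.algebraMap_apply R S K b', ← hb'', map_mul, ← IsScalarTower.algebraMap_apply,
      map_pow]
  rw [map_mul, map_mul, map_pow, map_pow, e1, e2]
  have h1 : algebraMap R K t ^ n ≠ 0 := pow_ne_zero _ htK
  have h2 : algebraMap R K t ^ m ≠ 0 := pow_ne_zero _ htK
  field_simp

variable {W B0 B1 B01 : Type u} [CommRing W] [CommRing B0] [CommRing B1] [CommRing B01]
  [Algebra W B0] [Algebra W B1] [Algebra W B01] [Algebra B0 B01] [Algebra B1 B01]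
  [IsScalarTower W B0 B01] [IsScalarTower W B1 B01]
  (c0 : TwoChart W B0 B1 B01) (L : Type u) [Field L] [Algebra W L]
  [IsDedekindDomain (L ⊗[W] B0)] [IsDedekindDomain (L ⊗[W] B1)] [IsDomain (L ⊗[W] B01)]

/-! ### The function field -/

/-- The function field of `X_L`. -/
abbrev FunField (W L B01 : Type u) [CommRing W] [Field L] [Algebra W L] [CommRing B01]
    [Algebra W B01] : Type u :=
  FractionRing (L ⊗[W] B01)

include c0 in
theorem embedsInF : EmbedsIn (L ⊗[W] B0) (L ⊗[W] B1) (L ⊗[W] B01) (FunField W L B01) where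
  inj0 := by
    rw [IsScalarTower.algebraMap_eq (L ⊗[W] B0) (L ⊗[W] B01) (FunField W L B01)]
    exact (IsFractionRing.injective (L ⊗[W] B01) (FunField W L B01)).comp
      (algebraMap_R0_injective (c0.baseChange L))
  inj1 := by
    rw [IsScalarTower.algebraMap_eq (L ⊗[W] B1) (L ⊗[W] B01) (FunField W L B01)]
    exact (IsFractionRing.injective (L ⊗[W] B01) (FunField W L B01)).comp
      (algebraMap_R1_injective (c0.baseChange L))
  inj01 := IsFractionRing.injective (L ⊗[W] B01) (FunField W L B01)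

include c0 in
theorem isFractionRingF0 : IsFractionRing (L ⊗[W] B0) (FunField W L B01) :=
  haveI := (c0.baseChange L).away0
  isFractionRing_of_away (S := L ⊗[W] B01) (c0.baseChange L).t
    (algebraMap_R0_injective (c0.baseChange L))

include c0 in
theorem isFractionRingF1 : IsFractionRing (L ⊗[W] B1) (FunField W L B01) :=
  haveI := (c0.baseChange L).away1
  isFractionRing_of_away (S := L ⊗[W] B01) (c0.baseChange L).s
    (algebraMap_R1_injective (c0.baseChange L))

/-! ### The action on the function field -/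

/-- The action of `τ` on the function field. -/
noncomputable def galF (τ : L ≃ₐ[W] L) : FunField W L B01 ≃+* FunField W L B01 :=
  IsFractionRing.ringEquivOfRingEquiv (galTensor τ B01)

theorem galF_algebraMap (τ : L ≃ₐ[W] L) (x : L ⊗[W] B01) :
    galF L τ (algebraMap (L ⊗[W] B01) (FunField W L B01) x) =
      algebraMap (L ⊗[W] B01) (FunField W L B01) (galTensor τ B01 x) :=
  IsFractionRing.ringEquivOfRingEquiv_algebraMap _ x

theorem galF_mul (σ τ : L ≃ₐ[W] L) (z : FunField W L B01) :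
    galF L (σ * τ) z = galF L σ (galF L τ z) := by
  have h : ((galF (W := W) (B01 := B01) L (σ * τ) : FunField W L B01 ≃+* FunField W L B01) :
      FunField W L B01 →+* FunField W L B01) =
      ((galF L σ : FunField W L B01 ≃+* FunField W L B01) :
        FunField W L B01 →+* FunField W L B01).comp
      ((galF L τ : FunField W L B01 ≃+* FunField W L B01) :
        FunField W L B01 →+* FunField W L B01) := by
    refine IsLocalization.ringHom_ext (nonZeroDivisors (L ⊗[W] B01)) ?_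
    refine RingHom.ext fun x => ?_
    show galF L (σ * τ) (algebraMap _ _ x) = galF L σ (galF L τ (algebraMap _ _ x))
    rw [galF_algebraMap, galF_algebraMap, galF_algebraMap, galTensor_mul]
  exact congrArg (fun φ : FunField W L B01 →+* FunField W L B01 => φ z) h

include c0 in
theorem galF_algebraMap0 (τ : L ≃ₐ[W] L) (x : L ⊗[W] B0) :
    galF L τ (algebraMap (L ⊗[W] B0) (FunField W L B01) x) =
      algebraMap (L ⊗[W] B0) (FunField W L B01) (galTensor τ B0 x) := by
  rw [IsScalarTower.algebraMap_apply (L ⊗[W] B0) (L ⊗[W] B01) (FunField W L B01),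
    IsScalarTower.algebraMap_apply (L ⊗[W] B0) (L ⊗[W] B01) (FunField W L B01), galF_algebraMap]
  exact congrArg _ (galTensorHom_algebraMap0 c0 τ x)

include c0 in
theorem galF_algebraMap1 (τ : L ≃ₐ[W] L) (x : L ⊗[W] B1) :
    galF L τ (algebraMap (L ⊗[W] B1) (FunField W L B01) x) =
      algebraMap (L ⊗[W] B1) (FunField W L B01) (galTensor τ B1 x) := by
  rw [IsScalarTower.algebraMap_apply (L ⊗[W] B1) (L ⊗[W] B01) (FunField W L B01),
    IsScalarTower.algebraMap_apply (L ⊗[W] B1) (L ⊗[W] B01) (FunField W L B01), galF_algebraMap]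
  exact congrArg _ (galTensorHom_algebraMap1 c0 τ x)

theorem galF_algebraMapL (τ : L ≃ₐ[W] L) (a : L) :
    galF (W := W) (B01 := B01) L τ (algebraMap L (FunField W L B01) a) =
      algebraMap L (FunField W L B01) (τ a) := by
  rw [IsScalarTower.algebraMap_apply L (L ⊗[W] B01) (FunField W L B01), galF_algebraMap,
    IsScalarTower.algebraMap_apply L (L ⊗[W] B01) (FunField W L B01)]
  rfl

/-- **The action of `G` on the diagram `L → L ⊗ B0, L ⊗ B1 → F`.** -/
noncomputable def hubAct (G : Subgroup (L ≃ₐ[W] L)) :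
    Core.Act L (L ⊗[W] B0) (L ⊗[W] B1) (FunField W L B01) G where
  sA g := (g.1 : L ≃ₐ[W] L).toRingEquiv
  s0 g := galTensor g.1 B0
  s1 g := galTensor g.1 B1
  sF g := galF L g.1
  sF_mul g h x := galF_mul L g.1 h.1 x
  sF_0 g x := galF_algebraMap0 c0 L g.1 x
  sF_1 g x := galF_algebraMap1 c0 L g.1 x
  sF_A g a := galF_algebraMapL L g.1 a
  faithful _ _ hgh := Subtype.ext (AlgEquiv.ext hgh)

/-! ### The normalisation -/

variable {L}

/-- The extension of a normalisation `lc` to the function field. -/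
noncomputable def lcF (lc : (L ⊗[W] B01) →*₀ L) (hlc0 : ∀ x, x ≠ 0 → lc x ≠ 0) :
    FunField W L B01 →*₀ L :=
  (IsLocalization.toLocalizationMap (nonZeroDivisors (L ⊗[W] B01))
    (FunField W L B01)).lift₀ lc
    (fun y => IsUnit.mk0 _ (hlc0 y (nonZeroDivisors.ne_zero y.2)))

theorem lcF_algebraMap (lc : (L ⊗[W] B01) →*₀ L) (hlc0 : ∀ x, x ≠ 0 → lc x ≠ 0)
    (x : L ⊗[W] B01) :
    lcF lc hlc0 (algebraMap (L ⊗[W] B01) (FunField W L B01) x) = lc x :=
  Submonoid.LocalizationMap.lift_eq _ _ x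

theorem lcF_algebraMapL (lc : (L ⊗[W] B01) →*₀ L) (hlc0 : ∀ x, x ≠ 0 → lc x ≠ 0)
    (hlcL : ∀ a : L, lc (a ⊗ₜ[W] (1 : B01)) = a) (a : L) :
    lcF lc hlc0 (algebraMap L (FunField W L B01) a) = a := by
  rw [IsScalarTower.algebraMap_apply L (L ⊗[W] B01) (FunField W L B01), lcF_algebraMap]
  exact hlcL a

theorem lcF_galF (lc : (L ⊗[W] B01) →*₀ L) (hlc0 : ∀ x, x ≠ 0 → lc x ≠ 0) (τ : L ≃ₐ[W] L)
    (hτ : ∀ x, lc (galTensorHom τ B01 x) = τ (lc x)) (z : FunField W L B01) :
    lcF lc hlc0 (galF L τ z) = τ (lcF lc hlc0 z) := by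
  obtain ⟨a, b, hb, rfl⟩ := IsFractionRing.div_surjective (A := L ⊗[W] B01) z
  rw [map_div₀, map_div₀, galF_algebraMap, galF_algebraMap, lcF_algebraMap, lcF_algebraMap,
    map_div₀, lcF_algebraMap, lcF_algebraMap, map_div₀]
  congr 1
  · exact hτ a
  · exact hτ b

/-! ### The core at the hub -/

variable (L)

include c0 in
/-- Ideal pairs of `X_L` with nonzero ideals define lines. -/
theorem isLine_of_ne_bot (D : IdealPair (L ⊗[W] B0) (L ⊗[W] B1) (L ⊗[W] B01)) (hD0 : D.I0 ≠ ⊥)
    (hD1 : D.I1 ≠ ⊥) : (ofIdeals (c0.baseChange L) D).IsLine :=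
  isLine_ofIdeals _ D (invertible_ideal_of_ne_bot _ hD0) (invertible_ideal_of_ne_bot _ hD1)

theorem idealPairGal_ne_bot0 (τ : L ≃ₐ[W] L)
    (D : IdealPair (L ⊗[W] B0) (L ⊗[W] B1) (L ⊗[W] B01)) (hD0 : D.I0 ≠ ⊥) :
    (idealPairGal c0 τ D).I0 ≠ ⊥ := by
  rw [idealPairGal_I0, ← galTensor_coe]
  exact (Ideal.map_eq_bot_iff_of_injective (galTensor τ B0).injective).not.mpr hD0

theorem idealPairGal_ne_bot1 (τ : L ≃ₐ[W] L)
    (D : IdealPair (L ⊗[W] B0) (L ⊗[W] B1) (L ⊗[W] B01)) (hD1 : D.I1 ≠ ⊥) :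
    (idealPairGal c0 τ D).I1 ≠ ⊥ := by
  rw [idealPairGal_I1, ← galTensor_coe]
  exact (Ideal.map_eq_bot_iff_of_injective (galTensor τ B1).injective).not.mpr hD1

/-- **Phi4 DESC', the core at the hub.**  An ideal pair `D` of `X_L` whose class is `G`-invariant
is linearly equivalent to a `G`-stable ideal pair `J`. -/
theorem exists_stable_pair (hH0 : H0Const (c0.baseChange L)) (G : Subgroup (L ≃ₐ[W] L))
    [Finite G] (lc : (L ⊗[W] B01) →*₀ L) (hlc0 : ∀ x, x ≠ 0 → lc x ≠ 0)
    (hlcL : ∀ a : L, lc (a ⊗ₜ[W] (1 : B01)) = a)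
    (hlcG : ∀ τ ∈ G, ∀ x, lc (galTensorHom τ B01 x) = τ (lc x))
    (D : IdealPair (L ⊗[W] B0) (L ⊗[W] B1) (L ⊗[W] B01)) (hD0 : D.I0 ≠ ⊥) (hD1 : D.I1 ≠ ⊥)
    (hinv : ∀ τ ∈ G, galPic c0 τ (LinePic.mk (c0.baseChange L) (ofIdeals (c0.baseChange L) D)
        (isLine_of_ne_bot c0 L D hD0 hD1)) =
      LinePic.mk (c0.baseChange L) (ofIdeals (c0.baseChange L) D)
        (isLine_of_ne_bot c0 L D hD0 hD1)) :
    ∃ (J : IdealPair (L ⊗[W] B0) (L ⊗[W] B1) (L ⊗[W] B01)) (hJ0 : J.I0 ≠ ⊥) (hJ1 : J.I1 ≠ ⊥),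
      (∀ τ ∈ G, idealPairGal c0 τ J = J) ∧
      LinePic.mk (c0.baseChange L) (ofIdeals (c0.baseChange L) J)
          (isLine_of_ne_bot c0 L J hJ0 hJ1) =
        LinePic.mk (c0.baseChange L) (ofIdeals (c0.baseChange L) D)
          (isLine_of_ne_bot c0 L D hD0 hD1) := by
  classical
  haveI : Fintype G := Fintype.ofFinite G
  have hF := embedsInF c0 L
  haveI := isFractionRingF0 c0 L
  haveI := isFractionRingF1 c0 L
  -- the invariant class hypothesis of the core
  have hcls : Core.InvariantClass (hubAct c0 L G) D := by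
    intro g
    have h1 := hinv g.1 g.2
    rw [galPic_mk_ofIdeals c0 g.1 D _
      (isLine_of_ne_bot c0 L _ (idealPairGal_ne_bot0 c0 L g.1 D hD0)
        (idealPairGal_ne_bot1 c0 L g.1 D hD1))] at h1
    obtain ⟨f, hf, hs⟩ := (mk_ofIdeals_eq_mk_ofIdeals_iff (c0.baseChange L) hF hD0 hD1 _ _).mp
      h1.symm
    exact ⟨f, hf, hs.1, hs.2⟩
  obtain ⟨b, J, hb, hbJ, hJ0, hJ1, hst⟩ := Core.exists_stable_scale (hubAct c0 L G)
    (c0.baseChange L) hF (lcF lc hlc0) (lcF_algebraMapL lc hlc0 hlcL)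
    (fun g x => lcF_galF lc hlc0 g.1 (hlcG g.1 g.2) x) hH0 D hD0 hD1 hcls
  refine ⟨J, hJ0, hJ1, fun τ hτ => ?_, ?_⟩
  · exact AbelJacobi73.idealPair_ext (hst ⟨τ, hτ⟩).1 (hst ⟨τ, hτ⟩).2
  · exact ((mk_ofIdeals_eq_mk_ofIdeals_iff (c0.baseChange L) hF hD0 hD1 _ _).mpr
      ⟨b, hb, hbJ⟩).symm

end Fermat.Agent.T1B.Desc1
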