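/-
Programme T1B (S44 / row 38), NODE/PHI cell, brick Phi4 DESC' (owner helper1): THE FINAL STATEMENT.

`c0 : TwoChart W B0 B1 B01` with `B0`, `B1` of finite type over `W`; `L ⊆ Ω` fields over `W`, `Ω`
algebraically closed, the charts of `X_L` and `X_Ω` Dedekind with integral overlap, `H⁰(X_L, O) = L`,
`G` a finite group of `W`-automorphisms of `L`, and `lc : L ⊗[W] B01 →*₀ L` a `G`-equivariant
normalisation (e.g. the leading coefficient of a `q`-expansion).

* `effective` : the effective case: a `G`-invariant class `∏_{x ∈ sP} [O(-x)]` of `L`-points becomes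
  over `Ω` the class of a multiset `s` of `Ω`-points which is stable under every `γ` inducing an
  element of `G` on `L` -- and the identity already holds over every intermediate field over which
  the points of `s` are defined;
* **`descStatement`** : `Desc1.DescStatement c0 L Ω G`.
-/
import Mathlib
import Fermat.Agent.T1B.Desc1.HubAct
import Fermat.Agent.T1B.Desc1.FieldBC
import Fermat.Agent.T1B.Desc8.DescEff
import Fermat.Agent.T1B.Desc8.Points
import Fermat.Agent.T1B.Desc43.Complement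
import Fermat.Agent.Jac.BaseChange75.Trans

set_option autoImplicit false
set_option linter.unusedSectionVars false
set_option linter.style.haveILetI false

open TensorProduct

namespace Fermat.Agent.T1B.Desc1.Final

open Fermat.Agent.Jac Fermat.Agent.Jac.JSmooth85Alg Fermat.Agent.Jac.JGroup85Pic
open Fermat.Agent.Jac.BaseChange75 Fermat.Agent.Jac.LineOps39 Fermat.Agent.T1.RedIface75
open Fermat.Agent.T1.PtLine75 Fermat.Agent.T1.GalAct44 Fermat.Agent.T1.CentresClass47
open Fermat.Agent.T1.Red68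
open Fermat.Agent.T1B.Desc1 Fermat.Agent.T1B.Desc8
open scoped Fermat.Agent.Jac.BaseChange75

universe u

/-- An ideal which is an invertible module over a nontrivial ring is nonzero. -/
theorem ne_bot_of_invertible {R : Type*} [CommRing R] [Nontrivial R] (I : Ideal R)
    (h : Module.Invertible R I) : I ≠ ⊥ := by
  rintro rfl
  have h10 : (1 : R) = 0 :=
    FaithfulSMul.eq_of_smul_eq_smul (α := (⊥ : Ideal R)) fun m => Subsingleton.elim _ _
  exact one_ne_zero h10

variable {W B0 B1 B01 : Type u} [CommRing W] [CommRing B0] [CommRing B1] [CommRing B01]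
  [Algebra W B0] [Algebra W B1] [Algebra W B01] [Algebra B0 B01] [Algebra B1 B01]
  [IsScalarTower W B0 B01] [IsScalarTower W B1 B01]
  (c0 : TwoChart W B0 B1 B01)

section General

variable {A : Type u} [CommRing A] [Algebra W A]

/-- The ideal pair of a multiset of points. -/
theorem exists_pair_of_multiset (s : Multiset (PtIdx c0 A)) :
    ∃ D : IdealPair (A ⊗[W] B0) (A ⊗[W] B1) (A ⊗[W] B01),
      D.I0 = (s.map fun x => (ptPairIdx c0 x).I0).prod ∧
      D.I1 = (s.map fun x => (ptPairIdx c0 x).I1).prod := by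
  induction s using Quotient.inductionOn with
  | _ l =>
    refine ⟨AbelJacobi73.pairProd (l.map (ptPairIdx c0)), ?_, ?_⟩
    · rw [Desc43.pairProd_I0, List.map_map]; simp [Function.comp_def]
    · rw [Desc43.pairProd_I1, List.map_map]; simp [Function.comp_def]

theorem I0_ne_bot_of_isLine [Nontrivial (A ⊗[W] B0)]
    (D : IdealPair (A ⊗[W] B0) (A ⊗[W] B1) (A ⊗[W] B01))
    (h : (ofIdeals (c0.baseChange A) D).IsLine) : D.I0 ≠ ⊥ :=
  ne_bot_of_invertible D.I0 h.inv0

theorem I1_ne_bot_of_isLine [Nontrivial (A ⊗[W] B1)]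
    (D : IdealPair (A ⊗[W] B0) (A ⊗[W] B1) (A ⊗[W] B01))
    (h : (ofIdeals (c0.baseChange A) D).IsLine) : D.I1 ≠ ⊥ :=
  ne_bot_of_invertible D.I1 h.inv1

end General

section Tower

variable {L : Type u} [CommRing L] [Algebra W L]
  (L' Ω : Type u) [CommRing L'] [CommRing Ω] [Algebra W L'] [Algebra W Ω] [Algebra L L']
  [Algebra L' Ω] [Algebra L Ω] [IsScalarTower W L L'] [IsScalarTower W L' Ω] [IsScalarTower W L Ω]
  [IsScalarTower L L' Ω]

/-- Transitivity of the extension of ideal pairs. -/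
theorem idealPairBC_idealPairBC (D : IdealPair (L ⊗[W] B0) (L ⊗[W] B1) (L ⊗[W] B01)) :
    (idealPairBC L' D).IsBC (idealPairBC Ω D) := by
  constructor
  · rw [idealPairBC_I0, idealPairBC_I0, Ideal.map_map,
      ← IsScalarTower.algebraMap_eq (L ⊗[W] B0) (L' ⊗[W] B0) (Ω ⊗[W] B0)]
  · rw [idealPairBC_I1, idealPairBC_I1, Ideal.map_map,
      ← IsScalarTower.algebraMap_eq (L ⊗[W] B1) (L' ⊗[W] B1) (Ω ⊗[W] B1)]

end Tower

/-! ### The effective case -/

section Main

variable [Algebra.FiniteType W B0] [Algebra.FiniteType W B1]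
  (L Ω : Type u) [Field L] [Field Ω] [IsAlgClosed Ω] [Algebra W L] [Algebra W Ω] [Algebra L Ω]
  [IsScalarTower W L Ω]
  [IsDedekindDomain (L ⊗[W] B0)] [IsDedekindDomain (L ⊗[W] B1)] [IsDomain (L ⊗[W] B01)]
  [IsDedekindDomain (Ω ⊗[W] B0)] [IsDedekindDomain (Ω ⊗[W] B1)] [IsDomain (Ω ⊗[W] B01)]

/-- **The effective case of Phi4 DESC'.** -/
theorem effective (hH0 : H0Const (c0.baseChange L)) (G : Subgroup (L ≃ₐ[W] L)) [Finite G]
    (lc : (L ⊗[W] B01) →*₀ L) (hlc0 : ∀ x, x ≠ 0 → lc x ≠ 0)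
    (hlcL : ∀ a : L, lc (a ⊗ₜ[W] (1 : B01)) = a)
    (hlcG : ∀ τ ∈ G, ∀ x, lc (galTensorHom τ B01 x) = τ (lc x))
    (sP : Multiset (PtIdx c0 L))
    (hP : ∀ τ ∈ G, galPic c0 τ (Effective.msCls c0 sP) = Effective.msCls c0 sP) :
    ∃ s : Multiset (PtIdx c0 Ω),
      PicX.map c0 L Ω (Effective.msCls c0 sP) = Effective.msCls c0 s ∧
      (∀ (γ : Ω ≃ₐ[W] Ω) (τ : L ≃ₐ[W] L), τ ∈ G →
        (∀ a : L, γ (algebraMap L Ω a) = algebraMap L Ω (τ a)) →
        s.map (twistIdx c0 γ) = s) ∧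
      ∀ (L' : Type u) [Field L'] [Algebra W L'] [Algebra L L'] [Algebra L' Ω]
        [IsScalarTower W L L'] [IsScalarTower W L' Ω] [IsScalarTower L L' Ω]
        (s' : Multiset (PtIdx c0 L')), s'.map (bcIdx c0 Ω) = s →
        PicX.map c0 L L' (Effective.msCls c0 sP) = Effective.msCls c0 s' := by
  -- the ideal pair of `sP`
  obtain ⟨D, hD0e, hD1e⟩ := exists_pair_of_multiset c0 sP
  have hDline := Desc43.isLine_ofIdeals_of_prod c0 D sP hD0e hD1e
  have hD0 : D.I0 ≠ ⊥ := I0_ne_bot_of_isLine c0 D hDline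
  have hD1 : D.I1 ≠ ⊥ := I1_ne_bot_of_isLine c0 D hDline
  have hDcls : LinePic.mk (c0.baseChange L) (ofIdeals (c0.baseChange L) D)
      (isLine_of_ne_bot c0 L D hD0 hD1) = Effective.msCls c0 sP :=
    Desc43.mk_ofIdeals_eq_prod c0 D sP hD0e hD1e _
  -- a stable representative
  obtain ⟨J, hJ0, hJ1, hJstab, hJcls⟩ := exists_stable_pair c0 L hH0 G lc hlc0 hlcL hlcG D hD0 hD1
    (by intro τ hτ; rw [hDcls]; exact hP τ hτ)
  have hJline := isLine_of_ne_bot c0 L J hJ0 hJ1
  have hJcls' : LinePic.mk (c0.baseChange L) (ofIdeals (c0.baseChange L) J) hJline =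
      Effective.msCls c0 sP := hJcls.trans hDcls
  -- over `Ω`
  have hJΩline := isLine_idealPairBC c0 Ω J hJline
  have hJΩ0 : (idealPairBC Ω J).I0 ≠ ⊥ := I0_ne_bot_of_isLine c0 _ hJΩline
  have hJΩ1 : (idealPairBC Ω J).I1 ≠ ⊥ := I1_ne_bot_of_isLine c0 _ hJΩline
  obtain ⟨p0, p1⟩ := Points.ptsOf_prod c0 Ω (idealPairBC Ω J) hJΩ0 hJΩ1
  refine ⟨Points.ptsOf c0 Ω (idealPairBC Ω J), ?_, ?_, ?_⟩
  · rw [← hJcls', map_mk_ofIdeals c0 Ω J hJline hJΩline]
    exact Desc43.mk_ofIdeals_eq_prod c0 _ _ p0 p1 hJΩline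
  · intro γ τ hτ hγ
    rw [← Points.ptsOf_gal, idealPairGal_idealPairBC c0 Ω γ τ hγ J, hJstab τ hτ]
  · intro L' _ _ _ _ _ _ _ s' hs'
    have hJL'line := isLine_idealPairBC c0 L' J hJline
    have hbc := idealPairBC_idealPairBC (B0 := B0) (B1 := B1) (B01 := B01) L' Ω J
    rw [← hJcls', map_mk_ofIdeals c0 L' J hJline hJL'line]
    refine Desc43.mk_ofIdeals_eq_of_map_eq c0 Ω (idealPairBC L' J) s' ?_ ?_ hJL'line
    · rw [hs', ← p0]; exact hbc.h0.symm
    · rw [hs', ← p1]; exact hbc.h1.symm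

/-- **Phi4 DESC'.** -/
theorem descStatement (hH0 : H0Const (c0.baseChange L)) (G : Subgroup (L ≃ₐ[W] L)) [Finite G]
    (lc : (L ⊗[W] B01) →*₀ L) (hlc0 : ∀ x, x ≠ 0 → lc x ≠ 0)
    (hlcL : ∀ a : L, lc (a ⊗ₜ[W] (1 : B01)) = a)
    (hlcG : ∀ τ ∈ G, ∀ x, lc (galTensorHom τ B01 x) = τ (lc x)) :
    DescStatement c0 L Ω G :=
  DescEff.descStatement_of_effective c0 L Ω G fun sP hP =>
    effective c0 L Ω hH0 G lc hlc0 hlcL hlcG sP hP

end Main

end Fermat.Agent.T1B.Desc1.Final
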