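/-
Programme T1B (S44 / row 38), NODE/PHI cell, brick Phi4 DESC' (owner helper1): the `q`-expansion form
of the final statement.  The normalisation `lc` of `Final.descStatement` is the leading coefficient
of an injective, `L`-linear, coefficientwise `G`-equivariant expansion
`E : L ⊗[W] B01 →+* LaurentSeries L`.
-/
import Mathlib
import Fermat.Agent.T1B.Desc1.Final
import Fermat.Agent.ES.P36.DescTools1

set_option autoImplicit false
set_option linter.unusedSectionVars false
set_option linter.style.haveILetI false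

open TensorProduct

namespace Fermat.Agent.T1B.Desc1.Final

open Fermat.Agent.Jac Fermat.Agent.Jac.JSmooth85Alg Fermat.Agent.Jac.JGroup85Pic
open Fermat.Agent.Jac.BaseChange75 Fermat.Agent.Jac.LineOps39 Fermat.Agent.T1.RedIface75
open Fermat.Agent.T1.PtLine75 Fermat.Agent.T1.GalAct44 Fermat.Agent.T1.CentresClass47
open Fermat.Agent.T1.Red68
open Fermat.Agent.T1B.Desc1 Fermat.Agent.T1B.Desc8
open Fermat.Agent.ES.P36.DescTools1
open scoped Fermat.Agent.Jac.BaseChange75

universe u

variable {W B0 B1 B01 : Type u} [CommRing W] [CommRing B0] [CommRing B1] [CommRing B01]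
  [Algebra W B0] [Algebra W B1] [Algebra W B01] [Algebra B0 B01] [Algebra B1 B01]
  [IsScalarTower W B0 B01] [IsScalarTower W B1 B01]
  (c0 : TwoChart W B0 B1 B01)
  [Algebra.FiniteType W B0] [Algebra.FiniteType W B1]
  (L Ω : Type u) [Field L] [Field Ω] [IsAlgClosed Ω] [Algebra W L] [Algebra W Ω] [Algebra L Ω]
  [IsScalarTower W L Ω]
  [IsDedekindDomain (L ⊗[W] B0)] [IsDedekindDomain (L ⊗[W] B1)] [IsDomain (L ⊗[W] B01)]
  [IsDedekindDomain (Ω ⊗[W] B0)] [IsDedekindDomain (Ω ⊗[W] B1)] [IsDomain (Ω ⊗[W] B01)]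

/-- **Phi4 DESC', `q`-expansion form.** -/
theorem descStatement_of_qExp (hH0 : H0Const (c0.baseChange L)) (G : Subgroup (L ≃ₐ[W] L))
    [Finite G] (E : (L ⊗[W] B01) →+* LaurentSeries L) (hEinj : Function.Injective E)
    (hEL : ∀ a : L, E (a ⊗ₜ[W] (1 : B01)) = algebraMap L (LaurentSeries L) a)
    (hEG : ∀ τ ∈ G, ∀ x, E (galTensorHom τ B01 x) =
      ModularCurve.coeffMap ((τ : L ≃ₐ[W] L) : L →+* L) (E x)) :
    DescStatement c0 L Ω G := by
  refine descStatement c0 L Ω hH0 G (lcHom.comp E.toMonoidWithZeroHom)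
    ?_ ?_ ?_
  · intro x hx
    exact lcHom_ne_zero ((map_ne_zero_iff E hEinj).mpr hx)
  · intro a
    show lcHom (E (a ⊗ₜ[W] (1 : B01))) = a
    rw [hEL, lcHom_algebraMap]
  · intro τ hτ x
    show lcHom (E (galTensorHom τ B01 x)) = τ (lcHom (E x))
    rw [hEG τ hτ, lcHom_coeffMap]
    rfl

end Fermat.Agent.T1B.Desc1.Final
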